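import Fermat.Agent.LT.Poisson.Pi
import Mathlib.LinearAlgebra.BilinearForm.Basic
import Mathlib.Algebra.Module.ZLattice.Covolume
import Mathlib.Analysis.Distribution.SchwartzSpace.Basic

/-!
Poisson summation for the lattice spanned by a basis of a finite-dimensional real vector space,
with respect to a bilinear pairing.
-/

noncomputable section

namespace Fermat.Agent.LT.Poisson

open MeasureTheory UnitAddTorus
open scoped Real

variable {d : Type*} [Fintype d]
variable {V : Type*} [NormedAddCommGroup V] [NormedSpace ℝ V]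

/-- The lattice vector with the given integer coordinates. -/
def latVec (b : d → V) (n : d → ℤ) : V := ∑ i, (n i : ℝ) • b i

/-- `e^{2πi t}`. -/
def eC (t : ℝ) : ℂ := Complex.exp (2 * π * Complex.I * t)

theorem eC_add (s t : ℝ) : eC (s + t) = eC s * eC t := by
  simp [eC, ← Complex.exp_add, mul_add]

@[simp] theorem eC_zero : eC 0 = 1 := by simp [eC]

theorem mFourier_toTorus (n : d → ℤ) (u : d → ℝ) :
    mFourier n (toTorus u) = eC (∑ i, (n i : ℝ) * u i) := by
  show ∏ i, fourier (n i) (u i : UnitAddCircle) = _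
  rw [eC, Complex.ofReal_sum, Finset.mul_sum, Complex.exp_sum]
  refine Finset.prod_congr rfl fun i _ => ?_
  rw [fourier_coe_apply]
  push_cast
  congr 1
  ring

variable [FiniteDimensional ℝ V] [MeasurableSpace V] [BorelSpace V]

theorem volume_pi_eq_addHaar :
    (volume : Measure (d → ℝ)) = (Pi.basisFun ℝ d).addHaar := by
  classical
  rw [eq_comm, Module.Basis.addHaar_eq_iff, Module.Basis.coe_parallelepiped,
    parallelepiped_basis_eq]
  have : {x : d → ℝ | ∀ i, (Pi.basisFun ℝ d).repr x i ∈ Set.Icc (0 : ℝ) 1} = Set.Icc 0 1 := by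
    ext x
    simp [Pi.le_def, forall_and]
  rw [this, Real.volume_Icc_pi]
  simp

theorem integral_latVec (μ : Measure V) [μ.IsAddHaarMeasure] (b : Module.Basis d ℝ V)
    (g : V → ℂ) : (μ b.parallelepiped).toReal • ∫ u : d → ℝ, g (∑ i, u i • b i) = ∫ x, g x ∂μ := by
  classical
  let e : (d → ℝ) ≃L[ℝ] V := b.equivFunL.symm
  have he : ∀ u, e u = ∑ i, u i • b i := fun u => b.equivFun_symm_apply u
  have hmap : Measure.map e volume = b.addHaar := by
    rw [volume_pi_eq_addHaar, Module.Basis.map_addHaar]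
    congr 1
    refine Module.Basis.eq_of_apply_eq fun i => ?_
    rw [Module.Basis.map_apply, ContinuousLinearEquiv.coe_toLinearEquiv, he, Pi.basisFun_apply,
      Finset.sum_eq_single i (fun j _ hj => by simp [hj]) (by simp)]
    simp
  have hμ : μ = μ b.parallelepiped • b.addHaar := by
    rw [Module.Basis.addHaar_def]
    exact Measure.addHaarMeasure_unique μ b.parallelepiped
  conv_rhs => rw [hμ, integral_smul_measure, ← hmap]
  rw [show (⇑e : (d → ℝ) → V) = ⇑e.toHomeomorph from rfl,
    e.toHomeomorph.measurableEmbedding.integral_map g]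
  simp only [ContinuousLinearEquiv.coe_toHomeomorph, he]

/-- Polynomial decay on a normed space. -/
def VDecay (f : V → ℂ) (b : ℝ) : Prop := ∃ C : ℝ, ∀ x, ‖f x‖ ≤ C * (1 + ‖x‖) ^ (-b)

omit [FiniteDimensional ℝ V] [MeasurableSpace V] [BorelSpace V] in
theorem VDecay.comp_basis {f : V → ℂ} {r : ℝ} (hr : 0 ≤ r) (hf : VDecay f r)
    (b : Module.Basis d ℝ V) (x : V) : Decay (fun u : d → ℝ => f (x + ∑ i, u i • b i)) r := by
  obtain ⟨C, hC⟩ := hf
  let e : (d → ℝ) ≃L[ℝ] V := b.equivFunL.symm
  have he : ∀ u, e u = ∑ i, u i • b i := fun u => b.equivFun_symm_apply u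
  set L := max 1 ‖(e.symm : V →L[ℝ] (d → ℝ))‖ with hL
  refine ⟨C * (L * (1 + ‖x‖)) ^ r, fun u => (hC _).trans ?_⟩
  have hC0 : 0 ≤ C := by simpa using (norm_nonneg _).trans (hC 0)
  rw [mul_assoc]
  refine mul_le_mul_of_nonneg_left ?_ hC0
  have h0 : ‖u‖ ≤ L * ‖∑ i, u i • b i‖ := by
    rw [← he]
    calc ‖u‖ = ‖(e.symm : V →L[ℝ] (d → ℝ)) (e u)‖ := by simp
      _ ≤ _ := ((e.symm : V →L[ℝ] (d → ℝ)).le_opNorm _).trans
        (mul_le_mul_of_nonneg_right (le_max_right _ _) (norm_nonneg _))
  have h1 : 1 + ‖u‖ ≤ L * (1 + ‖x‖) * (1 + ‖x + ∑ i, u i • b i‖) := by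
    have h2 := norm_sub_le (x + ∑ i, u i • b i) x
    rw [add_sub_cancel_left] at h2
    have hL1 : 1 ≤ L := le_max_left _ _
    nlinarith [norm_nonneg x, norm_nonneg (x + ∑ i, u i • b i),
      mul_nonneg (norm_nonneg x) (norm_nonneg (x + ∑ i, u i • b i))]
  have hLpos : 0 < L := lt_of_lt_of_le one_pos (le_max_left _ _)
  rw [Real.rpow_neg (by positivity), Real.rpow_neg (by positivity), ← div_eq_mul_inv,
    le_div_iff₀ (by positivity), inv_mul_le_iff₀ (by positivity), mul_comm,
    ← Real.mul_rpow (by positivity) (by positivity)]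
  exact Real.rpow_le_rpow (by positivity) h1 hr

/-- The Fourier transform of `f` for a bilinear pairing. -/
def pairFourier (μ : Measure V) (B : V →ₗ[ℝ] V →ₗ[ℝ] ℝ) (f : V → ℂ) (y : V) : ℂ :=
  ∫ x, eC (-B y x) * f x ∂μ

/-- **Poisson summation** on the lattice spanned by a basis `b`, with dual family `b'`. -/
theorem tsum_latVec (μ : Measure V) [μ.IsAddHaarMeasure] (b : Module.Basis d ℝ V)
    (B : V →ₗ[ℝ] V →ₗ[ℝ] ℝ) (b' : d → V) [DecidableEq d]
    (hdual : ∀ j i, B (b' j) (b i) = if j = i then 1 else 0)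
    {f : V → ℂ} (hc : Continuous f) {r : ℝ} (hr : (Fintype.card d : ℝ) < r) (hf : VDecay f r)
    (hsum : Summable fun m : d → ℤ => pairFourier μ B f (latVec b' m)) (x : V) :
    ∑' n : d → ℤ, f (x + latVec b n) =
      (μ b.parallelepiped).toReal⁻¹ •
        ∑' m : d → ℤ, pairFourier μ B f (latVec b' m) * eC (B (latVec b' m) x) := by
  have hr0 : 0 ≤ r := (Nat.cast_nonneg _).trans hr.le
  set g : (d → ℝ) → ℂ := fun u => f (x + ∑ i, u i • b i) with hg
  have hgc : Continuous g := hc.comp (by fun_prop)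
  have hgd : Decay g r := hf.comp_basis hr0 b x
  have hvol : (μ b.parallelepiped).toReal ≠ 0 := by
    refine ENNReal.toReal_ne_zero.mpr ⟨(Measure.measure_pos_of_nonempty_interior _
      b.parallelepiped.interior_nonempty).ne', b.parallelepiped.isCompact.measure_lt_top.ne⟩
  have hpair : ∀ (m : d → ℤ) (u : d → ℝ),
      B (latVec b' m) (∑ i, u i • b i) = ∑ i, (m i : ℝ) * u i := by
    intro m u
    simp [latVec, map_sum, hdual, Finset.sum_apply, mul_comm]
  have hcoef : ∀ m : d → ℤ, fourierInt g m =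
      (μ b.parallelepiped).toReal⁻¹ • (pairFourier μ B f (latVec b' m) * eC (B (latVec b' m) x)) := by
    intro m
    have h2 : pairFourier μ B f (latVec b' m) * eC (B (latVec b' m) x) =
        ∫ v, eC (-B (latVec b' m) v) * f (x + v) ∂μ := by
      rw [pairFourier, ← integral_mul_const]
      rw [← integral_add_left_eq_self (μ := μ)
        (fun v => eC (-B (latVec b' m) v) * f v * eC (B (latVec b' m) x)) x]
      congr 1
      funext v
      rw [map_add, neg_add_rev, eC_add]
      rw [mul_right_comm, mul_assoc (eC (-B (latVec b' m) v)), ← eC_add]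
      simp
    rw [h2, ← integral_latVec μ b, inv_smul_smul₀ hvol, fourierInt]
    congr 1
    funext u
    rw [hpair, mFourier_toTorus]
    simp [hg]
  have hgs : Summable (fourierInt g) := by
    have h : Summable fun m : d → ℤ =>
        pairFourier μ B f (latVec b' m) * eC (B (latVec b' m) x) := by
      refine Summable.of_norm_bounded hsum.norm fun m => ?_
      rw [norm_mul, eC, Complex.norm_exp]
      simp
    exact (h.const_smul ((μ b.parallelepiped).toReal⁻¹)).congr fun m => (hcoef m).symm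
  have key := tsum_eq_tsum_fourierInt hgc hr hgd hgs 0
  have h0 : ∀ m : d → ℤ, mFourier m (toTorus (0 : d → ℝ)) = 1 := fun m => by
    simp [mFourier_toTorus]
  simp only [h0, mul_one, hcoef] at key
  rw [tsum_const_smul''] at key
  simpa [hg, latVec] using key

end Fermat.Agent.LT.Poisson
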