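import Fermat.Agent.LT.Poisson.Lattice
import Mathlib.Analysis.SpecialFunctions.Gaussian.FourierTransform
import Mathlib.Analysis.Complex.Isometry
import Mathlib.MeasureTheory.Measure.Lebesgue.Complex
import Mathlib.MeasureTheory.Measure.Haar.InnerProductSpace

/-!
The Gaussian `exp(-2π r |s|²) e(Re(u s²))` on `ℂ` attached to the point `(u, r)` of hyperbolic
3-space, and its Fourier transform for the pairing `2 Re(a s)`: inversion `(u, r) ↦ -1/(u, r)`.
-/

noncomputable section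

namespace Fermat.Agent.LT.Poisson

open MeasureTheory Complex
open scoped Real ComplexConjugate

/-- The Gaussian attached to `(u, r)`. -/
def gaussC (u : ℂ) (r : ℝ) (s : ℂ) : ℂ :=
  Real.exp (-2 * π * r * ‖s‖ ^ 2) * eC ((u * s ^ 2).re)

theorem norm_gaussC (u : ℂ) (r : ℝ) (s : ℂ) :
    ‖gaussC u r s‖ = Real.exp (-2 * π * r * ‖s‖ ^ 2) := by
  rw [gaussC, norm_mul, Complex.norm_real, Real.norm_of_nonneg (Real.exp_pos _).le, eC,
    Complex.norm_exp]
  simp

theorem continuous_gaussC (u : ℂ) (r : ℝ) : Continuous (gaussC u r) := by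
  unfold gaussC eC
  fun_prop

/-- The one-variable integral. -/
theorem integral_gauss_line {r : ℝ} (hr : 0 < r) (ρ c : ℝ) :
    ∫ p : ℝ, cexp (-(2 * π * (r - ρ * I)) * p ^ 2 + -(4 * π * c * I) * p + 0) =
      (1 / (2 * (r - ρ * I))) ^ (1 / 2 : ℂ) * cexp (-(2 * π * c ^ 2) / (r - ρ * I)) := by
  have hb : ((r : ℂ) - ρ * I) ≠ 0 := fun h => by
    have := congrArg Complex.re h
    simp at this
    linarith
  have hπ : (π : ℂ) ≠ 0 := by exact_mod_cast Real.pi_ne_zero
  rw [integral_cexp_quadratic (by simp; positivity)]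
  congr 1
  · congr 1
    field_simp
  · congr 1
    have hI : (I : ℂ) ^ 2 = -1 := I_sq
    field_simp
    linear_combination (4 * (π : ℂ) * c ^ 2 * ((r : ℂ) - ρ * I)⁻¹) * hI

/-- The Fourier transform in diagonal coordinates. -/
theorem integral_gauss_diag {r : ℝ} (hr : 0 < r) (ρ c d : ℝ) :
    ∫ s : ℂ, cexp (-(2 * π * (r - ρ * I)) * s.re ^ 2 + -(4 * π * c * I) * s.re + 0) *
        cexp (-(2 * π * (r - (-ρ) * I)) * s.im ^ 2 + -(4 * π * d * I) * s.im + 0) =
      ((2 * Real.sqrt (r ^ 2 + ρ ^ 2))⁻¹ : ℝ) *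
        cexp (-(2 * π * (c ^ 2 * (r + ρ * I) + d ^ 2 * (r - ρ * I))) / (r ^ 2 + ρ ^ 2)) := by
  rw [← (Complex.volume_preserving_equiv_real_prod.symm).integral_comp
    Complex.measurableEquivRealProd.symm.measurableEmbedding]
  simp only [Complex.measurableEquivRealProd_symm_apply]
  rw [Measure.volume_eq_prod, integral_prod_mul
    (fun p : ℝ => cexp (-(2 * π * (r - ρ * I)) * p ^ 2 + -(4 * π * c * I) * p + 0))
    (fun q : ℝ => cexp (-(2 * π * (r - (-ρ : ℂ) * I)) * q ^ 2 + -(4 * π * d * I) * q + 0)),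
    integral_gauss_line hr ρ c]
  have h2 := integral_gauss_line hr (-ρ) d
  push_cast at h2
  rw [h2]
  set w : ℂ := 1 / (2 * (r - ρ * I)) with hw
  have hwre : 0 < w.re := by
    rw [hw, one_div, Complex.inv_re]
    refine div_pos (by simpa using hr) (Complex.normSq_pos.mpr ?_)
    intro h
    have := congrArg Complex.re h
    simp at this
    linarith
  have hconj : (1 / (2 * ((r : ℂ) - -(ρ : ℂ) * I))) = conj w := by
    simp [hw, map_ofNat, Complex.conj_ofReal]
  have harg : w.arg ≠ π := fun h => by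
    rw [Complex.arg_eq_pi_iff] at h
    linarith [h.1]
  have hhalf : conj (1 / 2 : ℂ) = 1 / 2 := by simp [map_ofNat]
  rw [hconj, Complex.conj_cpow _ _ harg, hhalf]
  have hnorm : w ^ (1 / 2 : ℂ) * conj (w ^ (1 / 2 : ℂ)) =
      (((2 * Real.sqrt (r ^ 2 + ρ ^ 2))⁻¹ : ℝ) : ℂ) := by
    rw [Complex.mul_conj, Complex.normSq_eq_norm_sq]
    congr 1
    have h1 : ‖w ^ (1 / 2 : ℂ)‖ = ‖w‖ ^ (1 / 2 : ℝ) := by
      rw [show (1 / 2 : ℂ) = ((1 / 2 : ℝ) : ℂ) by norm_num, Complex.norm_cpow_real]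
    rw [h1, ← Real.sqrt_eq_rpow, Real.sq_sqrt (norm_nonneg _), hw, norm_div, norm_one, norm_mul,
      one_div]
    congr 2
    · simp
    · rw [Complex.norm_def, Complex.normSq_apply]
      congr 1
      simp
      ring
  rw [mul_mul_mul_comm, hnorm, ← Complex.exp_add]
  congr 2
  have h1 : ((r : ℂ) - ρ * I) ≠ 0 := fun h => by
    have := congrArg Complex.re h
    simp at this; linarith
  have h2 : ((r : ℂ) + ρ * I) ≠ 0 := fun h => by
    have := congrArg Complex.re h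
    simp at this; linarith
  have h3 : ((r : ℂ) ^ 2 + ρ ^ 2) = (r - ρ * I) * (r + ρ * I) := by
    linear_combination (ρ : ℂ) ^ 2 * I_sq
  rw [h3, show (r : ℂ) - -(ρ : ℂ) * I = r + ρ * I by ring]
  field_simp
  ring

/-- **Fourier transform of the Gaussian**: inversion on hyperbolic space. -/
theorem integral_gaussC (u : ℂ) {r : ℝ} (hr : 0 < r) (a : ℂ) :
    ∫ s : ℂ, eC (-(2 * (a * s).re)) * gaussC u r s =
      ((2 * Real.sqrt (Complex.normSq u + r ^ 2))⁻¹ : ℝ) *
        gaussC (-(conj u) / (Complex.normSq u + r ^ 2 : ℝ)) (r / (Complex.normSq u + r ^ 2)) a := by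
  set ζ : Circle := Circle.exp (-(u.arg / 2)) with hζ
  set ρ : ℝ := ‖u‖
  set a' : ℂ := (ζ : ℂ) * a with ha'
  have hu : u * (ζ : ℂ) ^ 2 = ρ := by
    rw [hζ, Circle.coe_exp, ← Complex.exp_nat_mul]
    conv_lhs => arg 1; rw [← Complex.norm_mul_exp_arg_mul_I u]
    rw [mul_assoc, ← Complex.exp_add]
    push_cast
    rw [show (u.arg : ℂ) * I + 2 * (-((u.arg : ℂ) / 2) * I) = 0 by ring, Complex.exp_zero, mul_one]
  rw [← (rotation ζ).measurePreserving.integral_comp
    (rotation ζ).toHomeomorph.measurableEmbedding]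
  have hpt : ∀ s : ℂ, eC (-(2 * (a * rotation ζ s).re)) * gaussC u r (rotation ζ s) =
      cexp (-(2 * π * (r - ρ * I)) * s.re ^ 2 + -(4 * π * (a'.re : ℂ) * I) * s.re + 0) *
        cexp (-(2 * π * (r - (-ρ : ℂ) * I)) * s.im ^ 2 +
          -(4 * π * ((-a'.im : ℝ) : ℂ) * I) * s.im + 0) := by
    intro s
    have e1 : (a * rotation ζ s).re = a'.re * s.re - a'.im * s.im := by
      rw [rotation_apply, ha', ← Complex.mul_re]
      congr 1
      ring
    have e2 : (u * (rotation ζ s) ^ 2).re = ρ * (s.re ^ 2 - s.im ^ 2) := by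
      rw [rotation_apply, mul_pow, ← mul_assoc, hu, Complex.re_ofReal_mul, sq s, Complex.mul_re]
      ring
    have e3 : ‖rotation ζ s‖ ^ 2 = s.re ^ 2 + s.im ^ 2 := by
      rw [LinearIsometryEquiv.norm_map, ← Complex.normSq_eq_norm_sq, Complex.normSq_apply]
      ring
    rw [gaussC, e1, e2, e3, eC, eC, Complex.ofReal_exp, ← Complex.exp_add, ← Complex.exp_add,
      ← Complex.exp_add]
    congr 1
    push_cast
    ring
  simp only [hpt]
  rw [integral_gauss_diag hr ρ a'.re (-a'.im)]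
  have hnsq : Complex.normSq u = ρ ^ 2 := Complex.normSq_eq_norm_sq u
  rw [hnsq, add_comm (r ^ 2) (ρ ^ 2), gaussC, eC, Complex.ofReal_exp, ← Complex.exp_add]
  congr 2
  have hne : ((ρ : ℂ) ^ 2 + r ^ 2) ≠ 0 := by
    exact_mod_cast (by positivity : ρ ^ 2 + r ^ 2 ≠ 0)
  have hunit : conj (ζ : ℂ) * ζ = 1 := by
    rw [mul_comm, Complex.mul_conj, Circle.normSq_coe, Complex.ofReal_one]
  have e4 : ‖a‖ ^ 2 = a'.re ^ 2 + a'.im ^ 2 := by
    have : ‖a'‖ = ‖a‖ := by rw [ha', norm_mul, Circle.norm_coe, one_mul]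
    rw [← this, ← Complex.normSq_eq_norm_sq, Complex.normSq_apply]
    ring
  have e5 : conj u * a ^ 2 = (ρ : ℂ) * a' ^ 2 := by
    have h := congrArg conj hu
    rw [map_mul, map_pow, Complex.conj_ofReal] at h
    rw [ha', mul_pow, ← h]
    linear_combination -(conj u * a ^ 2 * (conj (ζ : ℂ) * ζ + 1)) * hunit
  have e6 : (-(conj u) / ((ρ ^ 2 + r ^ 2 : ℝ) : ℂ) * a ^ 2).re =
      -(ρ * (a'.re ^ 2 - a'.im ^ 2)) / (ρ ^ 2 + r ^ 2) := by
    rw [neg_div, neg_mul, Complex.neg_re, div_mul_eq_mul_div, Complex.div_ofReal_re, e5,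
      Complex.re_ofReal_mul, sq a', Complex.mul_re]
    ring
  rw [e6, e4]
  push_cast
  rw [show ((r : ℂ) ^ 2 + (ρ : ℂ) ^ 2) = (ρ : ℂ) ^ 2 + r ^ 2 from add_comm _ _]
  field_simp
  ring

end Fermat.Agent.LT.Poisson
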