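import Fermat.Agent.LT.Poisson.GaussianC
import Mathlib.MeasureTheory.Integral.Pi

/-!
Gaussians on `κ → ℂ` attached to a family of points of hyperbolic 3-space, and the inversion
formula for their lattice sums (with Jacobi shifts).
-/

noncomputable section

namespace Fermat.Agent.LT.Poisson

open MeasureTheory Complex
open scoped Real ComplexConjugate

variable {κ : Type*} [Fintype κ]

/-- `B(v, w) = ∑ 2 Re(v_k w_k)`. -/
def pairC : (κ → ℂ) →ₗ[ℝ] (κ → ℂ) →ₗ[ℝ] ℝ :=
  LinearMap.mk₂ ℝ (fun v w => ∑ k, 2 * (v k * w k).re)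
    (fun v v' w => by simp [add_mul, mul_add, Finset.sum_add_distrib])
    (fun c v w => by
      simp only [Pi.smul_apply, Complex.real_smul, mul_assoc, Complex.re_ofReal_mul, smul_eq_mul,
        Finset.mul_sum]
      exact Finset.sum_congr rfl fun k _ => by ring)
    (fun v w w' => by simp [mul_add, Finset.sum_add_distrib])
    (fun c v w => by
      simp only [Pi.smul_apply, Complex.real_smul, smul_eq_mul, Finset.mul_sum]
      exact Finset.sum_congr rfl fun k _ => by
        rw [show v k * ((c : ℂ) * w k) = (c : ℂ) * (v k * w k) by ring, Complex.re_ofReal_mul]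
        ring)

theorem pairC_apply (v w : κ → ℂ) : pairC v w = ∑ k, 2 * (v k * w k).re := rfl

theorem pairC_comm (v w : κ → ℂ) : pairC v w = pairC w v := by
  simp [pairC_apply, mul_comm]

/-- The Gaussian attached to a family of points `(u k, r k)`. -/
def gaussV (u : κ → ℂ) (r : κ → ℝ) (v : κ → ℂ) : ℂ := ∏ k, gaussC (u k) (r k) (v k)

theorem continuous_gaussV (u : κ → ℂ) (r : κ → ℝ) : Continuous (gaussV u r) :=
  continuous_finsetProd _ fun k _ => (continuous_gaussC _ _).comp (continuous_apply k)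

/-- Inversion of the horizontal coordinate. -/
def invU (u : ℂ) (r : ℝ) : ℂ := -(conj u) / (Complex.normSq u + r ^ 2 : ℝ)

/-- Inversion of the height. -/
def invR (u : ℂ) (r : ℝ) : ℝ := r / (Complex.normSq u + r ^ 2)

theorem invR_pos (u : ℂ) {r : ℝ} (hr : 0 < r) : 0 < invR u r :=
  div_pos hr (add_pos_of_nonneg_of_pos (Complex.normSq_nonneg u) (by positivity))

/-- The constant in the inversion formula. -/
def gaussConst (u : κ → ℂ) (r : κ → ℝ) : ℝ :=
  ∏ k, (2 * Real.sqrt (Complex.normSq (u k) + r k ^ 2))⁻¹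

theorem pairFourier_gaussV (u : κ → ℂ) {r : κ → ℝ} (hr : ∀ k, 0 < r k) (y : κ → ℂ) :
    pairFourier volume pairC (gaussV u r) y =
      (gaussConst u r : ℂ) * gaussV (fun k => invU (u k) (r k)) (fun k => invR (u k) (r k)) y := by
  have h : ∀ v : κ → ℂ, eC (-pairC y v) * gaussV u r v =
      ∏ k, eC (-(2 * (y k * v k).re)) * gaussC (u k) (r k) (v k) := fun v => by
    rw [Finset.prod_mul_distrib, gaussV]
    congr 1
    rw [pairC_apply, ← Finset.sum_neg_distrib, eC, Complex.ofReal_sum, Finset.mul_sum,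
      Complex.exp_sum]
    exact Finset.prod_congr rfl fun k _ => rfl
  rw [pairFourier]
  simp only [h]
  rw [MeasureTheory.integral_fintype_prod_volume_eq_prod
    (fun (k : κ) (s : ℂ) => eC (-(2 * (y k * s).re)) * gaussC (u k) (r k) s)]
  simp only [integral_gaussC _ (hr _), gaussV, gaussConst, Complex.ofReal_prod,
    Finset.prod_mul_distrib, invU, invR]

/-- Shifts of argument and modulation under the Fourier transform. -/
theorem pairFourier_shift (f : (κ → ℂ) → ℂ) (p q y : κ → ℂ) :
    pairFourier volume pairC (fun v => f (v + p) * eC (pairC q v)) y =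
      eC (pairC (y - q) p) * pairFourier volume pairC f (y - q) := by
  rw [pairFourier, pairFourier, ← integral_const_mul,
    ← integral_add_right_eq_self (fun v => eC (pairC (y - q) p) * (eC (-pairC (y - q) v) * f v)) p]
  congr 1
  funext v
  rw [← mul_assoc (eC (pairC (y - q) p)), ← eC_add,
    show eC (-pairC y v) * (f (v + p) * eC (pairC q v)) =
      eC (-pairC y v) * eC (pairC q v) * f (v + p) by ring, ← eC_add]
  congr 2
  simp only [map_add, map_sub, LinearMap.sub_apply]
  ring

theorem norm_eC (t : ℝ) : ‖eC t‖ = 1 := by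
  rw [eC, Complex.norm_exp]
  simp

theorem exp_neg_mul_le_rpow {c r : ℝ} (hc : 0 < c) (hr : 0 ≤ r) :
    ∃ C, ∀ x : ℝ, 0 ≤ x → Real.exp (-c * x ^ 2) ≤ C * (1 + x) ^ (-r) := by
  obtain ⟨C, hC⟩ : ∃ C, ∀ x : ℝ, 0 ≤ x → Real.exp (-c * x ^ 2) * (1 + x) ^ r ≤ C := by
    refine ⟨Real.exp (r ^ 2 / (4 * c)), fun x hx => ?_⟩
    have h1 : (1 + x) ^ r ≤ Real.exp (r * x) := by
      rw [Real.rpow_def_of_pos (by positivity), mul_comm]
      gcongr
      linarith [Real.log_le_sub_one_of_pos (show (0 : ℝ) < 1 + x by positivity)]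
    refine (mul_le_mul_of_nonneg_left h1 (Real.exp_pos _).le).trans ?_
    rw [← Real.exp_add]
    gcongr
    have h2 : r * x - c * x ^ 2 ≤ r ^ 2 / (4 * c) := by
      rw [le_div_iff₀ (by positivity)]
      nlinarith [sq_nonneg (2 * c * x - r)]
    linarith
  refine ⟨C, fun x hx => ?_⟩
  rw [Real.rpow_neg (by positivity), ← div_eq_mul_inv, le_div_iff₀ (by positivity)]
  exact hC x hx

theorem vdecay_gaussV (u : κ → ℂ) {r : κ → ℝ} (hr : ∀ k, 0 < r k) {e : ℝ} (he : 0 ≤ e) :
    VDecay (gaussV u r) e := by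
  classical
  rcases isEmpty_or_nonempty κ with hκ | hκ
  · exact ⟨1, fun x => by simp [gaussV, Subsingleton.elim x 0]⟩
  set c : ℝ := Finset.univ.inf' Finset.univ_nonempty r
  have hc : 0 < c := by simpa [c] using hr
  obtain ⟨C, hC⟩ := exp_neg_mul_le_rpow (mul_pos Real.two_pi_pos hc) he
  refine ⟨C, fun v => le_trans ?_ (hC ‖v‖ (norm_nonneg v))⟩
  obtain ⟨k₀, -, hk₀⟩ := Finset.exists_max_image Finset.univ (fun k => ‖v k‖) Finset.univ_nonempty
  have hv : ‖v‖ = ‖v k₀‖ := le_antisymm
    ((pi_norm_le_iff_of_nonneg (norm_nonneg _)).mpr fun k => hk₀ k (Finset.mem_univ k))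
    (norm_le_pi_norm v k₀)
  rw [gaussV, norm_prod, ← Finset.mul_prod_erase _ _ (Finset.mem_univ k₀), norm_gaussC, hv]
  refine (mul_le_of_le_one_right (Real.exp_pos _).le (Finset.prod_le_one (fun k _ => norm_nonneg _)
    fun k _ => ?_)).trans ?_
  · rw [norm_gaussC, Real.exp_le_one_iff]
    have := hr k
    nlinarith [Real.pi_pos, sq_nonneg ‖v k‖, mul_pos Real.pi_pos (hr k),
      mul_nonneg (mul_pos Real.pi_pos (hr k)).le (sq_nonneg ‖v k‖)]
  · gcongr
    have hle : c ≤ r k₀ := Finset.inf'_le _ (Finset.mem_univ k₀)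
    nlinarith [Real.pi_pos, mul_le_mul_of_nonneg_left hle Real.pi_pos.le]

variable {d : Type*} [Fintype d] [DecidableEq d]

omit [DecidableEq d] in
theorem summable_gaussV_lattice (b : Module.Basis d ℝ (κ → ℂ)) (u : κ → ℂ) {r : κ → ℝ}
    (hr : ∀ k, 0 < r k) (x : κ → ℂ) : Summable fun n : d → ℤ => gaussV u r (x + latVec b n) :=
  (summable_translate (f := fun w : d → ℝ => gaussV u r (x + ∑ i, w i • b i))
    (lt_add_one _) ((vdecay_gaussV u hr (by positivity)).comp_basis (by positivity) b x)
    0).congr fun n => by simp [latVec]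

/-- **Inversion formula** for shifted Gaussian lattice sums. -/
theorem tsum_gaussV_inversion (b : Module.Basis d ℝ (κ → ℂ)) (b' : Module.Basis d ℝ (κ → ℂ))
    (hdual : ∀ j i, pairC (b' j) (b i) = if j = i then 1 else 0)
    (u : κ → ℂ) {r : κ → ℝ} (hr : ∀ k, 0 < r k) (p q x : κ → ℂ) :
    ∑' n : d → ℤ, gaussV u r (x + latVec b n + p) * eC (pairC q (x + latVec b n)) =
      ((volume (b.parallelepiped : Set (κ → ℂ))).toReal⁻¹ * gaussConst u r : ℝ) *
        ∑' m : d → ℤ, eC (pairC (latVec b' m) x) * eC (pairC (latVec b' m - q) p) *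
          gaussV (fun k => invU (u k) (r k)) (fun k => invR (u k) (r k)) (latVec b' m - q) := by
  set f : (κ → ℂ) → ℂ := fun v => gaussV u r (v + p) * eC (pairC q v)
  have hc : Continuous f :=
    ((continuous_gaussV u r).comp (continuous_id.add continuous_const)).mul (by
      unfold eC
      exact Complex.continuous_exp.comp (continuous_const.mul
        (Complex.continuous_ofReal.comp (pairC q).continuous_of_finiteDimensional)))
  have hdec : VDecay f ((Fintype.card d : ℝ) + 1) := by
    obtain ⟨C, hC⟩ := vdecay_gaussV u hr (e := (Fintype.card d : ℝ) + 1) (by positivity)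
    have hC0 : 0 ≤ C := by simpa using (norm_nonneg _).trans (hC 0)
    refine ⟨C * (1 + ‖p‖) ^ ((Fintype.card d : ℝ) + 1), fun v => ?_⟩
    rw [norm_mul, norm_eC, mul_one]
    refine (hC _).trans ?_
    rw [mul_assoc]
    refine mul_le_mul_of_nonneg_left ?_ hC0
    rw [Real.rpow_neg (by positivity), Real.rpow_neg (by positivity), ← div_eq_mul_inv,
      le_div_iff₀ (by positivity), inv_mul_le_iff₀ (by positivity), mul_comm,
      ← Real.mul_rpow (by positivity) (by positivity)]
    refine Real.rpow_le_rpow (by positivity) ?_ (by positivity)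
    have := norm_sub_le (v + p) p
    rw [add_sub_cancel_right] at this
    nlinarith [norm_nonneg p, norm_nonneg (v + p)]
  have hFT : ∀ m : d → ℤ, pairFourier volume pairC f (latVec b' m) =
      eC (pairC (latVec b' m - q) p) * ((gaussConst u r : ℂ) *
        gaussV (fun k => invU (u k) (r k)) (fun k => invR (u k) (r k)) (latVec b' m - q)) := by
    intro m
    rw [pairFourier_shift, pairFourier_gaussV u hr]
  have hsum : Summable fun m : d → ℤ => pairFourier volume pairC f (latVec b' m) := by
    refine Summable.of_norm_bounded (((summable_gaussV_lattice b' (fun k => invU (u k) (r k))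
      (fun k => invR_pos (u k) (hr k)) (-q)).norm).mul_left |gaussConst u r|) fun m => le_of_eq ?_
    rw [hFT, norm_mul, norm_eC, one_mul, norm_mul, Complex.norm_real, Real.norm_eq_abs,
      neg_add_eq_sub]
  have key := tsum_latVec volume b pairC (fun j => b' j) hdual hc (lt_add_one _) hdec hsum x
  rw [key, Complex.real_smul, Complex.ofReal_mul, mul_assoc]
  congr 1
  rw [← tsum_mul_left]
  refine tsum_congr fun m => ?_
  rw [show latVec (fun j => b' j) m = latVec b' m from rfl, hFT]
  ring

end Fermat.Agent.LT.Poisson
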