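import Mathlib.Analysis.Fourier.AddCircleMulti
import Mathlib.Algebra.Module.ZLattice.Summable
import Mathlib.MeasureTheory.Measure.Lebesgue.EqHaar
import Mathlib.Analysis.SpecialFunctions.JapaneseBracket
import Mathlib.MeasureTheory.Group.Integral
import Mathlib.MeasureTheory.Integral.DominatedConvergence

/-!
Poisson summation over `ℤ^d` in `d → ℝ`, for functions with polynomial decay.
-/

noncomputable section

namespace Fermat.Agent.LT.Poisson

open MeasureTheory Filter Topology UnitAddTorus Set
open scoped Real

variable {d : Type*} [Fintype d]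

set_option linter.unusedSectionVars false

/-- The real vector attached to an integer vector. -/
def intVec (n : d → ℤ) : d → ℝ := fun i => (n i : ℝ)

@[simp] theorem intVec_apply (n : d → ℤ) (i : d) : intVec n i = (n i : ℝ) := rfl

theorem intVec_add (m n : d → ℤ) : intVec (m + n) = intVec m + intVec n := by
  funext i; simp

theorem intVec_injective : Function.Injective (intVec (d := d)) := fun m n h =>
  funext fun i => Int.cast_injective (congrFun h i)

/-- `∑ (1 + ‖n‖) ^ (-b)` converges over `ℤ^d` for `b > d`. -/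
theorem summable_one_add_norm_rpow {b : ℝ} (hb : (Fintype.card d : ℝ) < b) :
    Summable fun n : d → ℤ => (1 + ‖intVec n‖) ^ (-b) := by
  classical
  let B := Pi.basisFun ℝ d
  let L : Submodule ℤ (d → ℝ) := Submodule.span ℤ (Set.range B)
  have hmem : ∀ n : d → ℤ, intVec n ∈ L := fun n =>
    B.mem_span_iff_repr_mem ℤ _ |>.mpr fun i => ⟨n i, by simp [B]⟩
  let e : (d → ℤ) → L := fun n => ⟨intVec n, hmem n⟩
  have he : Function.Injective e := fun m n h => intVec_injective (congrArg Subtype.val h)
  have hrank : Module.finrank ℤ L = Fintype.card d := by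
    rw [ZLattice.rank ℝ L, Module.finrank_fintype_fun_eq_card]
  have h1 := (ZLattice.summable_norm_rpow L (-b) (by rw [hrank]; linarith)).comp_injective he
  refine Summable.of_norm_bounded_eventually h1 ?_
  refine (Set.finite_singleton (0 : d → ℤ)).subset fun n hn => ?_
  by_contra hne
  apply hn
  have hpos : 0 < ‖intVec n‖ := norm_pos_iff.mpr fun h0 => hne (intVec_injective (by
    rw [h0]; funext i; simp))
  have hb0 : 0 ≤ b := (Nat.cast_nonneg _).trans hb.le
  show ‖(1 + ‖intVec n‖) ^ (-b)‖ ≤ _
  rw [Real.norm_of_nonneg (by positivity)]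
  simp only [Function.comp_apply, e]
  show _ ≤ ‖intVec n‖ ^ (-b)
  exact Real.rpow_le_rpow_of_nonpos hpos (by linarith) (by linarith)

/-- Polynomial decay of order `b`. -/
def Decay (f : (d → ℝ) → ℂ) (b : ℝ) : Prop :=
  ∃ C : ℝ, ∀ x, ‖f x‖ ≤ C * (1 + ‖x‖) ^ (-b)

theorem Decay.bound_translate {f : (d → ℝ) → ℂ} {b : ℝ} (hb : 0 ≤ b) (hf : Decay f b) (R : ℝ) :
    ∃ C : ℝ, ∀ x, ‖x‖ ≤ R → ∀ n : d → ℤ,
      ‖f (x + intVec n)‖ ≤ C * (1 + ‖intVec n‖) ^ (-b) := by
  obtain ⟨C, hC⟩ := hf
  have hC0 : 0 ≤ C := by
    have := (norm_nonneg _).trans (hC 0)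
    simpa using this
  refine ⟨C * (1 + max R 0) ^ b, fun x hx n => (hC _).trans ?_⟩
  rw [mul_assoc]
  refine mul_le_mul_of_nonneg_left ?_ hC0
  have h1 : 1 + ‖intVec n‖ ≤ (1 + max R 0) * (1 + ‖x + intVec n‖) := by
    have h2 := norm_sub_le (x + intVec n) x
    rw [add_sub_cancel_left] at h2
    nlinarith [norm_nonneg (x + intVec n), le_max_left R 0, le_max_right R 0]
  rw [Real.rpow_neg (by positivity), Real.rpow_neg (by positivity), ← div_eq_mul_inv,
    le_div_iff₀ (by positivity), inv_mul_le_iff₀ (by positivity), mul_comm,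
    ← Real.mul_rpow (by positivity) (by positivity)]
  exact Real.rpow_le_rpow (by positivity) h1 hb

theorem summable_translate {f : (d → ℝ) → ℂ} {b : ℝ} (hb : (Fintype.card d : ℝ) < b)
    (hf : Decay f b) (x : d → ℝ) : Summable fun n : d → ℤ => f (x + intVec n) := by
  obtain ⟨C, hC⟩ := hf.bound_translate ((Nat.cast_nonneg _).trans hb.le) ‖x‖
  exact Summable.of_norm_bounded ((summable_one_add_norm_rpow hb).mul_left C) (hC x le_rfl)

/-- The periodisation of `f`. -/
def periodize (f : (d → ℝ) → ℂ) (x : d → ℝ) : ℂ := ∑' n : d → ℤ, f (x + intVec n)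

theorem periodize_add_intVec (f : (d → ℝ) → ℂ) (x : d → ℝ) (m : d → ℤ) :
    periodize f (x + intVec m) = periodize f x := by
  rw [periodize, periodize, ← (Equiv.addLeft m).tsum_eq fun n => f (x + intVec n)]
  refine tsum_congr fun n => ?_
  simp only [Equiv.coe_addLeft, intVec_add, add_assoc]

theorem continuous_periodize {f : (d → ℝ) → ℂ} (hc : Continuous f) {b : ℝ}
    (hb : (Fintype.card d : ℝ) < b) (hf : Decay f b) : Continuous (periodize f) := by
  refine continuous_iff_continuousAt.mpr fun x => ?_
  obtain ⟨C, hC⟩ := hf.bound_translate ((Nat.cast_nonneg _).trans hb.le) (‖x‖ + 1)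
  have hco : ContinuousOn (periodize f) (Metric.closedBall x 1) :=
    continuousOn_tsum (fun n => (hc.comp (continuous_id.add continuous_const)).continuousOn)
      ((summable_one_add_norm_rpow hb).mul_left C) fun n y hy => hC y (by
        rw [Metric.mem_closedBall, dist_eq_norm] at hy
        linarith [norm_le_norm_add_norm_sub' y x]) n
  exact hco.continuousAt (Metric.closedBall_mem_nhds x one_pos)

/-- The projection to the torus. -/
def toTorus (x : d → ℝ) : UnitAddTorus d := fun i => (x i : UnitAddCircle)

omit [Fintype d] in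
theorem toTorus_eq_iff {x y : d → ℝ} :
    toTorus x = toTorus y ↔ ∃ m : d → ℤ, y = x + intVec m := by
  constructor
  · intro h
    have h' : ∀ i, ∃ m : ℤ, y i = x i + m := fun i => by
      obtain ⟨m, hm⟩ := AddSubgroup.mem_zmultiples_iff.mp
        ((QuotientAddGroup.eq (s := AddSubgroup.zmultiples (1 : ℝ))).mp (congrFun h i))
      refine ⟨m, ?_⟩
      simp only [zsmul_eq_mul, mul_one] at hm
      linarith
    choose m hm using h'
    exact ⟨m, funext hm⟩
  · rintro ⟨m, rfl⟩
    funext i
    simp [toTorus]

theorem isOpenQuotientMap_toTorus : IsOpenQuotientMap (toTorus (d := d)) :=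
  IsOpenQuotientMap.piMap fun _ => QuotientAddGroup.isOpenQuotientMap_mk

/-- The periodisation as a function on the torus. -/
def periodizeTorus {f : (d → ℝ) → ℂ} (hc : Continuous f) {b : ℝ}
    (hb : (Fintype.card d : ℝ) < b) (hf : Decay f b) : C(UnitAddTorus d, ℂ) where
  toFun t := periodize f (Function.surjInv isOpenQuotientMap_toTorus.surjective t)
  continuous_toFun := by
    rw [← isOpenQuotientMap_toTorus.continuous_comp_iff]
    refine (continuous_periodize hc hb hf).congr fun x => ?_
    obtain ⟨m, hm⟩ := toTorus_eq_iff.mp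
      (Function.surjInv_eq isOpenQuotientMap_toTorus.surjective (toTorus x))
    rw [Function.comp_apply]
    conv_lhs => rw [hm]
    rw [periodize_add_intVec]

theorem periodizeTorus_apply {f : (d → ℝ) → ℂ} (hc : Continuous f) {b : ℝ}
    (hb : (Fintype.card d : ℝ) < b) (hf : Decay f b) (x : d → ℝ) :
    periodizeTorus hc hb hf (toTorus x) = periodize f x := by
  show periodize f (Function.surjInv isOpenQuotientMap_toTorus.surjective (toTorus x)) = _
  obtain ⟨m, hm⟩ := toTorus_eq_iff.mp
    (Function.surjInv_eq isOpenQuotientMap_toTorus.surjective (toTorus x))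
  conv_rhs => rw [hm]
  rw [periodize_add_intVec]

/-- The Fourier transform at an integer vector. -/
def fourierInt (f : (d → ℝ) → ℂ) (n : d → ℤ) : ℂ :=
  ∫ x, mFourier (-n) (toTorus x) * f x

/-- The half-open unit box. -/
def unitBox : Set (d → ℝ) := {x | ∀ i, x i ∈ Ioc (0 : ℝ) (0 + 1)}

theorem measurableSet_unitBox : MeasurableSet (unitBox (d := d)) :=
  MeasurableSet.univ_pi' fun _ => measurableSet_Ioc

omit [Fintype d] in
theorem exists_unique_translate (x : d → ℝ) : ∃! m : d → ℤ, x - intVec m ∈ unitBox := by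
  refine ⟨fun i => ⌈x i⌉ - 1, fun i => ?_, fun m hm => funext fun i => ?_⟩
  · simp only [Pi.sub_apply, intVec_apply, Set.mem_Ioc, Int.cast_sub, Int.cast_one, zero_add]
    constructor <;> linarith [Int.ceil_lt_add_one (x i), Int.le_ceil (x i)]
  · have h := hm i
    simp only [Pi.sub_apply, intVec_apply, Set.mem_Ioc, zero_add] at h
    have : ⌈x i⌉ = m i + 1 := Int.ceil_eq_iff.mpr (by push_cast; constructor <;> linarith)
    omega

theorem mFourierCoeff_periodize {f : (d → ℝ) → ℂ} (hc : Continuous f) {b : ℝ}
    (hb : (Fintype.card d : ℝ) < b) (hf : Decay f b) (hint : Integrable f) (n : d → ℤ) :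
    mFourierCoeff (periodizeTorus hc hb hf) n = fourierInt f n := by
  rw [mFourierCoeff_eq_integral _ n (fun _ => 0)]
  set e : (d → ℝ) → ℂ := fun x => mFourier (-n) (toTorus x) with he
  have hec : Continuous e :=
    (mFourier (-n)).continuous.comp isOpenQuotientMap_toTorus.continuous
  have heper : ∀ x m, e (x + intVec m) = e x := fun x m => by
    simp only [he]
    rw [(toTorus_eq_iff (x := x)).mpr ⟨m, rfl⟩]
  have hbd : ∀ x, ‖e x‖ ≤ 1 := fun x =>
    ((mFourier (-n)).norm_coe_le_norm _).trans mFourier_norm.le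
  obtain ⟨C, hC⟩ := hf.bound_translate ((Nat.cast_nonneg _).trans hb.le) 1
  have hboxn : ∀ x ∈ unitBox (d := d), ‖x‖ ≤ 1 := fun x hx => by
    refine (pi_norm_le_iff_of_nonneg zero_le_one).mpr fun i => ?_
    have := hx i
    simp only [Set.mem_Ioc, zero_add] at this
    rw [Real.norm_eq_abs, abs_le]
    constructor <;> linarith
  have hvol : (volume : Measure (d → ℝ)) unitBox ≠ ⊤ := by
    refine ne_top_of_le_ne_top (isCompact_closedBall (0 : d → ℝ) 1).measure_lt_top.ne
      (measure_mono fun x hx => ?_)
    simpa using hboxn x hx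
  have step : ∫ x in unitBox, e x * periodize f x =
      ∑' m : d → ℤ, ∫ x in unitBox, e x * f (x + intVec m) := by
    rw [← integral_tsum]
    · refine setIntegral_congr_fun measurableSet_unitBox fun x _ => ?_
      rw [periodize, tsum_mul_left]
    · exact fun m =>
        (hec.mul (hc.comp (continuous_id.add continuous_const))).aestronglyMeasurable
    · have hle : ∀ m, ∫⁻ x in unitBox, ‖e x * f (x + intVec m)‖ₑ ≤
          ENNReal.ofReal (C * (1 + ‖intVec m‖) ^ (-b)) * volume (unitBox (d := d)) := fun m => by
        rw [← setLIntegral_const]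
        refine setLIntegral_mono measurable_const fun x hx => ?_
        rw [← ofReal_norm]
        refine ENNReal.ofReal_le_ofReal ?_
        rw [norm_mul]
        exact (mul_le_of_le_one_left (norm_nonneg _) (hbd x)).trans (hC x (hboxn x hx) m)
      refine ne_top_of_le_ne_top ?_ (ENNReal.tsum_le_tsum hle)
      rw [ENNReal.tsum_mul_right, ← ENNReal.ofReal_tsum_of_nonneg]
      · exact ENNReal.mul_ne_top ENNReal.ofReal_ne_top hvol
      · exact fun m => (norm_nonneg _).trans (hC 0 (by simp) m)
      · exact (summable_one_add_norm_rpow hb).mul_left C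
  have hint2 : Integrable fun x => e x * f x :=
    hint.bdd_mul hec.aestronglyMeasurable (ae_of_all _ hbd)
  have hpart : ∫ x, e x * f x = ∑' m : d → ℤ, ∫ x in unitBox, e x * f (x + intVec m) := by
    have hU : (⋃ m : d → ℤ, (fun x => x - intVec m) ⁻¹' unitBox) = univ :=
      eq_univ_of_forall fun x =>
        Set.mem_iUnion.mpr ((exists_unique_translate x).exists)
    rw [← setIntegral_univ, ← hU, integral_iUnion]
    · refine tsum_congr fun m => ?_
      rw [← (measurePreserving_add_right volume (intVec m)).setIntegral_preimage_emb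
        (MeasurableEquiv.addRight (intVec m)).measurableEmbedding]
      simp only [← Set.preimage_comp, Function.comp_def, add_sub_cancel_right, Set.preimage_id',
        heper]
    · exact fun m => measurableSet_unitBox.preimage (by fun_prop)
    · intro m m' hmm
      refine Set.disjoint_left.mpr fun x hx hx' => hmm ?_
      exact (exists_unique_translate x).unique hx hx'
    · exact hint2.integrableOn
  rw [fourierInt, hpart, ← step]
  refine setIntegral_congr_fun measurableSet_unitBox fun x _ => ?_
  show mFourier (-n) (toTorus x) • periodizeTorus hc hb hf (toTorus x) = _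
  rw [smul_eq_mul, periodizeTorus_apply]

theorem Decay.integrable {f : (d → ℝ) → ℂ} (hc : Continuous f) {b : ℝ}
    (hb : (Fintype.card d : ℝ) < b) (hf : Decay f b) : Integrable f := by
  obtain ⟨C, hC⟩ := hf
  refine Integrable.mono' ((integrable_one_add_norm (μ := volume) (r := b) ?_).const_mul C)
    hc.aestronglyMeasurable (ae_of_all _ hC)
  rwa [Module.finrank_fintype_fun_eq_card]

/-- **Poisson summation** on `ℤ^d`. -/
theorem tsum_eq_tsum_fourierInt {f : (d → ℝ) → ℂ} (hc : Continuous f) {b : ℝ}
    (hb : (Fintype.card d : ℝ) < b) (hf : Decay f b) (hsum : Summable (fourierInt f))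
    (x : d → ℝ) :
    ∑' n : d → ℤ, f (x + intVec n) =
      ∑' n : d → ℤ, fourierInt f n * mFourier n (toTorus x) := by
  have hco : mFourierCoeff (periodizeTorus hc hb hf) = fourierInt f :=
    funext (mFourierCoeff_periodize hc hb hf (hf.integrable hc hb))
  have h := hasSum_mFourier_series_apply_of_summable (f := periodizeTorus hc hb hf)
    (by rw [hco]; exact hsum) (toTorus x)
  rw [hco, periodizeTorus_apply] at h
  exact h.tsum_eq.symm

end Fermat.Agent.LT.Poisson
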